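import Fermat.Agent.X0OneTwentyFive.Norm

/-!
# The plane model of `X₀(125)`

`T (T⁴ + 5T³ + 15T² + 25T + 25) (S⁴ + 5S³ + 15S² + 25S + 25) = S⁵` has no rational solution with
`S ≠ 0`.
-/

set_option autoImplicit false
set_option linter.style.haveILetI false

noncomputable section

open NumberField

namespace FA.X0OneTwentyFive

/-- The cofactor of `25` in `normForm (5 a) b`. -/
def normFormFive {R : Type*} [CommRing R] (a b : R) : R :=
  25 * a ^ 4 + 25 * a ^ 3 * b + 15 * a ^ 2 * b ^ 2 + 5 * a * b ^ 3 + b ^ 4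

theorem normForm_five_mul {R : Type*} [CommRing R] (a b : R) :
    normForm (5 * a) b = 25 * normFormFive a b := by simp only [normForm, normFormFive]; ring

theorem isCoprime_normFormFive {a b : ℤ} (h : IsCoprime (5 * a) b) :
    IsCoprime (5 * a) (normFormFive a b) := by
  have := (h.pow_right (n := 4)).add_mul_left_right
    (5 * a ^ 3 + 5 * a ^ 2 * b + 3 * a * b ^ 2 + b ^ 3)
  rwa [show b ^ 4 + 5 * a * (5 * a ^ 3 + 5 * a ^ 2 * b + 3 * a * b ^ 2 + b ^ 3) =
    normFormFive a b by simp only [normFormFive]; ring] at this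

theorem isCoprime_normForm {a b : ℤ} (h : IsCoprime a b) : IsCoprime b (normForm a b) := by
  have := (h.symm.pow_right (n := 4)).add_mul_left_right
    (5 * a ^ 3 + 15 * a ^ 2 * b + 25 * a * b ^ 2 + 25 * b ^ 3)
  rwa [show a ^ 4 + b * (5 * a ^ 3 + 15 * a ^ 2 * b + 25 * a * b ^ 2 + 25 * b ^ 3) =
    normForm a b by simp only [normForm]; ring] at this

theorem normForm_pos (c : ℤ) {d : ℤ} (hd : 0 < d) : 0 < normForm c d := by
  rw [show normForm c d = (c ^ 2 + 2 * c * d + d ^ 2) ^ 2 + (c * d) * (c ^ 2 + 9 * c * d +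
    21 * d ^ 2) + 24 * d ^ 4 by simp only [normForm]; ring]
  nlinarith [sq_nonneg (c + 2 * d), sq_nonneg (c ^ 2 + 2 * c * d), sq_nonneg (c * d + d ^ 2),
    mul_nonneg (sq_nonneg d) (sq_nonneg (c + d)), pow_pos hd 4,
    sq_nonneg (2 * c ^ 2 + 5 * c * d), sq_nonneg (c * d + 2 * d ^ 2)]

theorem five_prime : Prime (5 : ℤ) := Nat.prime_iff_prime_int.mp Nat.prime_five

set_option backward.isDefEq.respectTransparency false in
/-- The integral form of the model. -/
theorem false_of_int {a b c d : ℤ} (hab : IsCoprime a b) (hcd : IsCoprime c d) (hb : 0 < b)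
    (hd : 0 < d) (hc : c ≠ 0)
    (h : a * normForm a b * (d * normForm c d) = c ^ 5 * b ^ 5) : False := by
  haveI := CyclotomicField.isCyclotomicExtension 5 ℚ
  haveI := isPrincipalIdealRing_five
  have hK := kummerProp_five
  have hbA : IsCoprime b (a * normForm a b) := hab.symm.mul_right (isCoprime_normForm hab)
  by_cases h5 : (5 : ℤ) ∣ c
  · obtain ⟨c₁, rfl⟩ := h5
    have hG := isCoprime_normFormFive hcd
    have hGc : IsCoprime (d * normFormFive c₁ d) (5 * c₁) := (hcd.mul_right hG).symm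
    have h' : 25 * (a * normForm a b) * (d * normFormFive c₁ d) = (5 * c₁) ^ 5 * b ^ 5 := by
      rw [← h, normForm_five_mul]; ring
    have h5b : ¬ (5 : ℤ) ∣ b := fun hb5 => by
      obtain ⟨b₁, rfl⟩ := hb5
      have e : 25 * ((a * normForm a (5 * b₁)) * (d * normFormFive c₁ d)) =
          25 * (5 * (5 ^ 7 * c₁ ^ 5 * b₁ ^ 5)) := by linear_combination h'
      rcases five_prime.dvd_or_dvd ⟨_, mul_left_cancel₀ (by norm_num) e⟩ with h1 | h1
      · exact five_prime.not_isUnit (hbA.isUnit_of_dvd' (dvd_mul_right _ _) h1)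
      · exact five_prime.not_isUnit (hGc.isUnit_of_dvd' h1 (dvd_mul_right _ _))
    have hb25 : IsCoprime (b ^ 5) (25 * (a * normForm a b)) := by
      refine IsCoprime.pow_left (IsCoprime.mul_right ?_ hbA)
      exact (((five_prime.coprime_iff_not_dvd).2 h5b).pow_left (m := 2)).symm
    have hdG : 0 < d * normFormFive c₁ d := by
      refine mul_pos hd ?_
      have h1 := normForm_five_mul c₁ d
      nlinarith [normForm_pos (5 * c₁) hd]
    have e1 : d * normFormFive c₁ d = b ^ 5 :=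
      Int.dvd_antisymm hdG.le (pow_pos hb 5).le
        ((hGc.pow_right (n := 5)).dvd_of_dvd_mul_left ⟨_, by rw [← h', mul_comm]⟩)
        (hb25.dvd_of_dvd_mul_left ⟨(5 * c₁) ^ 5, by rw [h', mul_comm]⟩)
    rw [e1] at h'
    have e2 : a * normForm a b = 125 * c₁ ^ 5 := mul_left_cancel₀ (show (25 : ℤ) ≠ 0 by norm_num)
      (by linear_combination mul_right_cancel₀ (pow_ne_zero 5 hb.ne') h')
    obtain ⟨a₁, rfl⟩ : (5 : ℤ) ∣ a := by
      refine five_prime.dvd_of_dvd_pow (n := 5)
        ⟨25 * c₁ ^ 5 - (a ^ 4 * b + 3 * a ^ 3 * b ^ 2 + 5 * a ^ 2 * b ^ 3 + 5 * a * b ^ 4), ?_⟩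
      simp only [normForm] at e2
      linear_combination e2
    have e3 : a₁ * normFormFive a₁ b = c₁ ^ 5 := mul_left_cancel₀ (show (125 : ℤ) ≠ 0 by norm_num)
      (by rw [← e2, normForm_five_mul]; ring)
    have hco : IsCoprime a₁ (normFormFive a₁ b) := (isCoprime_normFormFive hab).of_mul_left_right
    obtain ⟨r, hr⟩ := Int.eq_pow_of_mul_eq_pow_odd_left hco (by decide : Odd 5) e3
    obtain ⟨v, hv⟩ := Int.eq_pow_of_mul_eq_pow_odd_right hco (by decide : Odd 5) e3
    have hr0 : r ≠ 0 := by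
      rintro rfl
      rw [hr, zero_pow (by norm_num), zero_mul, eq_comm, pow_eq_zero_iff (by norm_num)] at e3
      exact hc (by rw [e3, mul_zero])
    obtain ⟨k, u, hu, rfl⟩ := WfDvdMonoid.max_power_factor hr0 five_prime.irreducible
    exact false_of_normForm_five (CyclotomicField 5 ℚ) hK hab (k := k) (u := u) (v := v) hu
      (by rw [hr]; ring) (by rw [normForm_five_mul, hv])
  · have hcF : IsCoprime c (normForm c d) := by
      have := (IsCoprime.mul_right (((five_prime.coprime_iff_not_dvd).2 h5).symm.pow_right (n := 2))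
        (hcd.pow_right (n := 4))).add_mul_left_right
          (c ^ 3 + 5 * c ^ 2 * d + 15 * c * d ^ 2 + 25 * d ^ 3)
      rwa [show 5 ^ 2 * d ^ 4 + c * (c ^ 3 + 5 * c ^ 2 * d + 15 * c * d ^ 2 + 25 * d ^ 3) =
        normForm c d by simp only [normForm]; ring] at this
    have hdF : 0 < d * normForm c d := mul_pos hd (normForm_pos c hd)
    have e1 : d * normForm c d = b ^ 5 :=
      Int.dvd_antisymm hdF.le (pow_pos hb 5).le
        ((((hcd.mul_right hcF).symm).pow_right (n := 5)).dvd_of_dvd_mul_left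
          ⟨_, by rw [← h, mul_comm]⟩)
        ((hbA.pow_left (m := 5)).dvd_of_dvd_mul_left ⟨c ^ 5, by rw [h, mul_comm]⟩)
    have hco : IsCoprime d (normForm c d) := isCoprime_normForm hcd
    obtain ⟨w, hw⟩ := Int.eq_pow_of_mul_eq_pow_odd_left hco (by decide : Odd 5) e1
    obtain ⟨z, hz⟩ := Int.eq_pow_of_mul_eq_pow_odd_right hco (by decide : Odd 5) e1
    have hw0 : w ≠ 0 := by rintro rfl; simp [hw] at hd
    exact false_of_normForm (CyclotomicField 5 ℚ) hK hcd h5 hw0 hw hz

/-- **The plane model has no rational point off `S = 0`.** -/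
theorem model_no_point {S T : ℚ} (hS : S ≠ 0)
    (h : T * (T ^ 4 + 5 * T ^ 3 + 15 * T ^ 2 + 25 * T + 25) *
      (S ^ 4 + 5 * S ^ 3 + 15 * S ^ 2 + 25 * S + 25) = S ^ 5) : False := by
  refine false_of_int (a := T.num) (b := (T.den : ℤ)) (c := S.num) (d := (S.den : ℤ))
    (Int.isCoprime_iff_gcd_eq_one.2 T.reduced) (Int.isCoprime_iff_gcd_eq_one.2 S.reduced)
    (Int.natCast_pos.2 T.den_pos)
    (Int.natCast_pos.2 S.den_pos) (Rat.num_ne_zero.2 hS) ?_
  have e : (T.num : ℚ) * normForm (T.num : ℚ) (T.den : ℚ) *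
      ((S.den : ℚ) * normForm (S.num : ℚ) (S.den : ℚ)) =
      (S.num : ℚ) ^ 5 * (T.den : ℚ) ^ 5 := by
    rw [← Rat.mul_den_eq_num T, ← Rat.mul_den_eq_num S]
    simp only [normForm]
    linear_combination (T.den : ℚ) ^ 5 * (S.den : ℚ) ^ 5 * h
  simp only [normForm] at e ⊢
  exact_mod_cast e

end FA.X0OneTwentyFive

end
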