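import Mathlib.FieldTheory.IsAlgClosed.AlgebraicClosure
import Mathlib.RingTheory.RootsOfUnity.AlgebraicallyClosed
import Mathlib.Data.Rat.Sqrt
import Mathlib.Tactic.Linarith
import Mathlib.Tactic.LinearCombination

/-!
# The fibre square of `j = (t² + 10 t + 5)³ / t`

Two distinct rational `t`, `x` with the same `j` come from a rational `S ≠ 0` by
`t (S⁴ + 5S³ + 15S² + 25S + 25) = S⁵`: with `u = 125 / x` the equations `g(S) = u`, `S⁶ = t u`,
`g(S) = S (S⁴ + 5S³ + 15S² + 25S + 25)`, have a common root, and a linear common divisor.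
-/

set_option autoImplicit false

noncomputable section

namespace FA.X0OneTwentyFive

local notation "Qb" => AlgebraicClosure ℚ

/-- `g(S) = u` and `S⁶ = r` have a common root when their eliminant vanishes. -/
theorem exists_common_root {r u : Qb}
    (h : (u ^ 2 - 25 * r) ^ 3 + r * (-50 * u - 625 - 5 * r) ^ 3 + r ^ 2 * (-10 * u - 125 - r) ^ 3 -
      3 * r * (u ^ 2 - 25 * r) * (-50 * u - 625 - 5 * r) * (-10 * u - 125 - r) = 0) :
    ∃ S : Qb, S * (S ^ 4 + 5 * S ^ 3 + 15 * S ^ 2 + 25 * S + 25) = u ∧ S ^ 6 = r := by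
  obtain ⟨z₀, hz₀⟩ := IsAlgClosed.exists_pow_nat_eq r (show 0 < 3 by norm_num)
  obtain ⟨ω, hω⟩ := HasEnoughRootsOfUnity.exists_primitiveRoot Qb 3
  have hω3 : ω ^ 3 = 1 := hω.pow_eq_one
  have hωs : ω ^ 2 + ω + 1 = 0 :=
    (mul_eq_zero.mp (show (ω - 1) * (ω ^ 2 + ω + 1) = 0 by linear_combination hω3)).resolve_left
      (sub_ne_zero.mpr (hω.ne_one (by norm_num)))
  set a := u ^ 2 - 25 * r with ha
  set b := -50 * u - 625 - 5 * r with hb
  set c := -10 * u - 125 - r with hc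
  obtain ⟨z, hz, hz3⟩ : ∃ z, a + z * b + z ^ 2 * c = 0 ∧ z ^ 3 = r := by
    have hp : (a + z₀ * b + z₀ ^ 2 * c) * ((a + ω * z₀ * b + (ω * z₀) ^ 2 * c) *
        (a + ω ^ 2 * z₀ * b + (ω ^ 2 * z₀) ^ 2 * c)) = 0 := by
      rw [← hz₀] at h
      linear_combination h + (a + z₀ * b + z₀ ^ 2 * c) *
        ((ω - 1) * (z₀ * b) ^ 2 + (ω - 1) * (ω ^ 3 + 1) * (z₀ ^ 2 * c) ^ 2 + a * (z₀ * b) +
          (ω ^ 2 - ω + 1) * a * (z₀ ^ 2 * c) +
          (ω ^ 3 - ω + 1) * (z₀ * b) * (z₀ ^ 2 * c)) * hωs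
    rcases mul_eq_zero.mp hp with h1 | h1
    · exact ⟨z₀, h1, hz₀⟩
    rcases mul_eq_zero.mp h1 with h1 | h1
    · exact ⟨_, h1, by rw [mul_pow, hω3, one_mul, hz₀]⟩
    · refine ⟨_, h1, ?_⟩
      rw [mul_pow, ← pow_mul, show 2 * 3 = 3 * 2 by norm_num, pow_mul, hω3, one_pow, one_mul, hz₀]
  obtain ⟨y, hy⟩ := IsAlgClosed.exists_pow_nat_eq z (show 0 < 2 by norm_num)
  have hfac : (y * (y ^ 4 + 5 * y ^ 3 + 15 * y ^ 2 + 25 * y + 25) - u) *
      (-y * ((-y) ^ 4 + 5 * (-y) ^ 3 + 15 * (-y) ^ 2 + 25 * (-y) + 25) - u) = 0 := by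
    rw [← hy] at hz hz3
    rw [ha, hb, hc] at hz
    linear_combination hz - (25 + 5 * y ^ 2 + y ^ 4) * hz3
  have hy6 : y ^ 6 = r := by rw [← hz3, ← hy, ← pow_mul]
  rcases mul_eq_zero.mp hfac with h1 | h1
  · exact ⟨y, sub_eq_zero.mp h1, hy6⟩
  · exact ⟨-y, sub_eq_zero.mp h1, by rw [Even.neg_pow (by decide), hy6]⟩

/-- The common root of `g(S) = u`, `S⁶ = r` is rational. -/
theorem exists_rat_root {r u : ℚ} {S : Qb}
    (h₁ : S * (S ^ 4 + 5 * S ^ 3 + 15 * S ^ 2 + 25 * S + 25) = (u : Qb))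
    (h₂ : S ^ 6 = (r : Qb)) :
    ∃ q : ℚ, (q : Qb) = S := by
  have e4 : -10 * S ^ 4 - 50 * S ^ 3 - 100 * S ^ 2 - (125 + (u : Qb)) * S +
      (5 * (u : Qb) + r) = 0 := by linear_combination (S - 5) * h₁ - h₂
  have e3 : -50 * S ^ 3 + ((u : Qb) - 125) * S ^ 2 + (-5 * (u : Qb) - r - 250) * S +
      10 * (u : Qb) = 0 := by linear_combination -10 * h₁ - S * e4
  have e2 : (-(u : Qb) ^ 2 + 250 * u + 50 * r + 3125) * S ^ 2 +
      (5 * (u : Qb) ^ 2 + r * u + 125 * u + 125 * r) * S + (-10 * (u : Qb) ^ 2 + 250 * r) = 0 := by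
    refine mul_left_cancel₀ (show (10 : Qb) ≠ 0 by norm_num) ?_
    linear_combination 2500 * e4 - (500 * S + 10 * u + 1250) * e3
  set A₀ : ℚ := 5 * u ^ 4 + r * u ^ 3 + 1375 * u ^ 3 + 375 * r * u ^ 2 + 46875 * u ^ 2 +
    34375 * r * u + 390625 * u + 390625 * r with hA₀
  set A₁ : ℚ := -u ^ 4 - 1000 * u ^ 3 - 1050 * r * u ^ 2 - 200 * r ^ 2 * u - 10 * r ^ 3 -
    75000 * u ^ 2 - 12500 * r * u - 1250 * r ^ 2 - 1562500 * u - 9765625 with hA₁
  have e1 : (A₁ : Qb) * S + (A₀ : Qb) = 0 := by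
    refine mul_left_cancel₀ (show (250 : Qb) ≠ 0 by norm_num) ?_
    rw [hA₀, hA₁]
    push_cast
    linear_combination ((u : Qb) ^ 4 - 500 * u ^ 3 - 100 * r * u ^ 2 + 56250 * u ^ 2 +
        25000 * r * u + 2500 * r ^ 2 + 1562500 * u + 312500 * r + 9765625) * e3 -
      ((50 * (u : Qb) ^ 2 - 12500 * u - 2500 * r - 156250) * S +
        (-(u : Qb) ^ 3 + 625 * u ^ 2 + 100 * r * u - 21875 * u - 390625)) * e2
  by_cases h0 : A₁ = 0
  · exfalso
    have h0' : A₀ = 0 := by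
      rw [h0, Rat.cast_zero, zero_mul, zero_add] at e1
      exact_mod_cast e1
    set D : ℚ := u ^ 3 + 375 * u ^ 2 + 34375 * u + 390625 with hD
    set M : ℚ := 5 * u ^ 4 + 1375 * u ^ 3 + 46875 * u ^ 2 + 390625 * u with hM
    have hu : (u - 125) * (u ^ 2 + 250 * u + 3125) ^ 5 * (-u ^ 2 + 500 * u + 15625) = 0 := by
      have hE : A₀ = D * r + M := by rw [hA₀, hD, hM]; ring
      have key : D ^ 3 * A₁ - (-10 * D ^ 2 * r ^ 2 +
          ((-1250 - 200 * u) * D ^ 2 + 10 * D * M) * r +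
          ((-12500 * u - 1050 * u ^ 2) * D ^ 2 - (-1250 - 200 * u) * D * M - 10 * M ^ 2)) *
            (D * r + M) =
          (u - 125) * (u ^ 2 + 250 * u + 3125) ^ 5 * (-u ^ 2 + 500 * u + 15625) := by
        rw [hA₁, hD, hM]; ring
      rw [← key, ← hE, h0, h0']
      ring
    have hirr : ∀ k : ℕ, Nat.sqrt k * Nat.sqrt k ≠ k → ∀ w : ℚ, w ^ 2 ≠ (k : ℚ) := by
      intro k hk w hw
      have h := Rat.isSquare_natCast_iff.1 ⟨w, by rw [← hw]; ring⟩
      obtain ⟨m, rfl⟩ := h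
      exact hk (by rw [Nat.sqrt_eq])
    rcases mul_eq_zero.mp hu with h' | h'
    · rcases mul_eq_zero.mp h' with h'' | h''
      · obtain rfl : u = 125 := by linarith
        obtain rfl : r = -375 := by
          rw [hA₀] at h0'; linarith
        push_cast at e2
        refine absurd ?_ (show (-250000 : Qb) ≠ 0 by norm_num)
        linear_combination e2
      · exact hirr 12500 (by decide +kernel) (u + 125)
          (by push_cast; linear_combination pow_eq_zero_iff (n := 5) (by norm_num) |>.1 h'')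
    · exact hirr 78125 (by decide +kernel) (u - 250) (by push_cast; linear_combination -h')
  · refine ⟨-A₀ / A₁, ?_⟩
    push_cast
    rw [div_eq_iff (by exact_mod_cast h0)]
    linear_combination -e1

/-- **The fibre square.** -/
theorem exists_fibre_param {t x : ℚ} (hx : x ≠ 0) (hne : t ≠ x)
    (h : (t ^ 2 + 10 * t + 5) ^ 3 * x = (x ^ 2 + 10 * x + 5) ^ 3 * t) :
    ∃ S : ℚ, S ≠ 0 ∧ t * (S ^ 4 + 5 * S ^ 3 + 15 * S ^ 2 + 25 * S + 25) = S ^ 5 := by
  set u := 125 / x with hu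
  have hu0 : u ≠ 0 := div_ne_zero (by norm_num) hx
  have hux : u * x = 125 := div_mul_cancel₀ _ hx
  have hΦ : (u ^ 2 - 25 * (t * u)) ^ 3 + (t * u) * (-50 * u - 625 - 5 * (t * u)) ^ 3 +
      (t * u) ^ 2 * (-10 * u - 125 - t * u) ^ 3 -
      3 * (t * u) * (u ^ 2 - 25 * (t * u)) * (-50 * u - 625 - 5 * (t * u)) *
        (-10 * u - 125 - t * u) = 0 := by
    refine (mul_eq_zero.mp (?_ : (t - x) * _ = 0)).resolve_left (sub_ne_zero.mpr hne)
    have hx' : x = 125 / u := by rw [hu]; field_simp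
    have key : (t - x) * ((u ^ 2 - 25 * (t * u)) ^ 3 +
        (t * u) * (-50 * u - 625 - 5 * (t * u)) ^ 3 +
        (t * u) ^ 2 * (-10 * u - 125 - t * u) ^ 3 -
        3 * (t * u) * (u ^ 2 - 25 * (t * u)) * (-50 * u - 625 - 5 * (t * u)) *
          (-10 * u - 125 - t * u)) =
        -(u ^ 6 / 125) * ((t ^ 2 + 10 * t + 5) ^ 3 * x - (x ^ 2 + 10 * x + 5) ^ 3 * t) := by
      rw [hx']
      field_simp
      ring
    rw [key, h, sub_self, mul_zero]
  obtain ⟨S', h₁, h₂⟩ := exists_common_root (r := ((t * u : ℚ) : Qb)) (u := (u : Qb))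
    (by exact_mod_cast congrArg (Rat.cast : ℚ → Qb) hΦ)
  obtain ⟨S, rfl⟩ := exists_rat_root h₁ h₂
  have h₁' : S * (S ^ 4 + 5 * S ^ 3 + 15 * S ^ 2 + 25 * S + 25) = u := by exact_mod_cast h₁
  have h₂' : S ^ 6 = t * u := by exact_mod_cast h₂
  have hS : S ≠ 0 := fun h0 => hu0 (by rw [← h₁', h0, zero_mul])
  refine ⟨S, hS, mul_left_cancel₀ hS ?_⟩
  linear_combination t * h₁' - h₂'

end FA.X0OneTwentyFive

end
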