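import Fermat.Agent.Root.SummaryX0TwentyFive

/-!
# The parameter of a stable line of order `5`

A point `R` of order `5` has the parameter `b - 1 / b - 11` for Kubert's `b`; it depends only on the
abscissae of `R`, `2 R`, symmetrically, so it is rational when the line is stable, and it determines
the line as the invariant is neither `0` nor `1728`.
-/

set_option autoImplicit false
set_option linter.style.haveILetI false
set_option linter.unusedSectionVars false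

noncomputable section

open WeierstrassCurve FA.KerPoly
open FA.Frob (vcX vcEquiv vcEquiv_some)
open FA.Thirteen (tateCurve)
open scoped WeierstrassCurve.Affine

local notation "Qb" => AlgebraicClosure ℚ
local notation "GQ" => AlgebraicClosure ℚ ≃ₐ[ℚ] AlgebraicClosure ℚ

namespace FA.X0OneTwentyFive

variable {E : WeierstrassCurve ℚ} [E.IsElliptic]

/-- `4 v³ + b₂ v² + 2 b₄ v + b₆`. -/
def psiSq (E : WeierstrassCurve ℚ) (v : Qb) : Qb :=
  4 * v ^ 3 + algebraMap ℚ Qb E.b₂ * v ^ 2 + 2 * algebraMap ℚ Qb E.b₄ * v + algebraMap ℚ Qb E.b₆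

theorem psiSq_eq (v : Qb) : (E⁄Qb).Ψ₂Sq.eval v = psiSq E v := by
  simp only [psiSq, WeierstrassCurve.Ψ₂Sq, baseChange, map_b₂, map_b₄, map_b₆, Polynomial.eval_add,
    Polynomial.eval_mul, Polynomial.eval_C, Polynomial.eval_pow, Polynomial.eval_X,
    Polynomial.eval_ofNat, map_mul, map_ofNat]

/-- The parameter of the line through `R`. -/
def lineParam (R : (E.toAffine⁄Qb).Point) : Qb :=
  (psiSq E (FA.EC.xc (W := E⁄Qb) ((2 : ℤ) • R)) - psiSq E (FA.EC.xc (W := E⁄Qb) R)) /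
    (FA.EC.xc (W := E⁄Qb) ((2 : ℤ) • R) - FA.EC.xc (W := E⁄Qb) R) ^ 3 - 11

theorem xc_congr {R : (E.toAffine⁄Qb).Point} (hR : (5 : ℤ) • R = 0) {n m : ℤ}
    (h : (5 : ℤ) ∣ n - m ∨ (5 : ℤ) ∣ n + m) :
    FA.EC.xc (W := E⁄Qb) (n • R) = FA.EC.xc (W := E⁄Qb) (m • R) := by
  rcases h with ⟨k, hk⟩ | ⟨k, hk⟩
  · rw [show n = m + k * 5 by omega, add_zsmul, mul_zsmul, hR, zsmul_zero, add_zero]
  · rw [show n = -m + k * 5 by omega, add_zsmul, mul_zsmul, hR, zsmul_zero, add_zero, neg_zsmul]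
    exact FA.EC.xc_neg _

/-- **The data of a point of order `5`.** -/
theorem line_data {R : (E.toAffine⁄Qb).Point} (hR : addOrderOf R = 5) :
    ∃ (b : Qb) (C : VariableChange Qb), b ≠ 0 ∧ b ^ 2 - 11 * b - 1 ≠ 0 ∧
      C • (E⁄Qb) = tateCurve b b ∧ C.r = FA.EC.xc (W := E⁄Qb) R ∧
      lineParam R = b - 1 / b - 11 ∧
      psiSq E (FA.EC.xc (W := E⁄Qb) ((2 : ℤ) • R)) =
        b * (FA.EC.xc (W := E⁄Qb) ((2 : ℤ) • R) - FA.EC.xc (W := E⁄Qb) R) ^ 3 ∧
      b * psiSq E (FA.EC.xc (W := E⁄Qb) R) =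
        (FA.EC.xc (W := E⁄Qb) ((2 : ℤ) • R) - FA.EC.xc (W := E⁄Qb) R) ^ 3 ∧
      FA.EC.xc (W := E⁄Qb) ((2 : ℤ) • R) - FA.EC.xc (W := E⁄Qb) R ≠ 0 ∧
      algebraMap ℚ Qb E.j * (b ^ 5 * (b ^ 2 - 11 * b - 1)) =
        (b ^ 4 - 12 * b ^ 3 + 14 * b ^ 2 + 12 * b + 1) ^ 3 := by
  classical
  obtain ⟨b, c, h0, hE, C, hC, he, hj⟩ := FA.Torsion.exists_tate_vc (W := E⁄Qb) R
    (fun h => by have := hR ▸ addOrderOf_dvd_of_nsmul_eq_zero h; norm_num at this)
    (fun h => by have := hR ▸ addOrderOf_dvd_of_nsmul_eq_zero h; norm_num at this)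
  obtain rfl : b = c := by
    obtain ⟨h3, e3⟩ := FA.Torsion.tate_three (b := b) (c := c) (h0 := h0)
    obtain ⟨h2, e2⟩ := FA.Torsion.tate_two (b := b) (c := c) (h0 := h0)
    have h5 : 5 • Affine.Point.some 0 0 h0 = 0 := by
      rw [← hR, ← FA.Torsion.addOrderOf_equiv (e := vcEquiv C hC) he]
      exact addOrderOf_nsmul_eq_zero _
    rw [show 5 = 3 + 2 from rfl, add_nsmul, e3, e2, add_eq_zero_iff_eq_neg,
      Affine.Point.neg_some, Affine.Point.some.injEq] at h5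
    exact h5.1.symm
  have hb := FA.Torsion.tate_b_ne_zero b b
  have hΔ := (tateCurve b b).isUnit_Δ.ne_zero
  rw [FA.Thirteen.Δ_tateCurve] at hΔ
  obtain ⟨hT2, eT2⟩ := FA.Torsion.tate_two (b := b) (c := b) (h0 := h0)
  have hx1 : FA.EC.xc (W := E⁄Qb) R = vcX C 0 := by rw [← he, vcEquiv_some, FA.EC.xc_some]
  have hx2 : FA.EC.xc (W := E⁄Qb) ((2 : ℤ) • R) = vcX C b := by
    rw [show (2 : ℤ) = ((2 : ℕ) : ℤ) from rfl, natCast_zsmul, ← he, ← map_nsmul, eT2,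
      vcEquiv_some, FA.EC.xc_some]
  have hu : (C.u : Qb) ≠ 0 := C.u.ne_zero
  have hd : FA.EC.xc (W := E⁄Qb) ((2 : ℤ) • R) - FA.EC.xc (W := E⁄Qb) R ≠ 0 := by
    rw [hx1, hx2, show vcX C b - vcX C 0 = (C.u : Qb) ^ 2 * b by simp only [vcX]; ring]
    exact mul_ne_zero (pow_ne_zero _ hu) hb
  have h2 : psiSq E (FA.EC.xc (W := E⁄Qb) ((2 : ℤ) • R)) =
      b * (FA.EC.xc (W := E⁄Qb) ((2 : ℤ) • R) - FA.EC.xc (W := E⁄Qb) R) ^ 3 := by
    rw [hx1, hx2, ← psiSq_eq, FA.Torsion.Ψ₂Sq_eval_vc hC]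
    simp [WeierstrassCurve.Ψ₂Sq, tateCurve, b₂, b₄, b₆, vcX]
    ring
  have h1 : b * psiSq E (FA.EC.xc (W := E⁄Qb) R) =
      (FA.EC.xc (W := E⁄Qb) ((2 : ℤ) • R) - FA.EC.xc (W := E⁄Qb) R) ^ 3 := by
    rw [hx1, hx2, ← psiSq_eq, FA.Torsion.Ψ₂Sq_eval_vc hC]
    simp [WeierstrassCurve.Ψ₂Sq, tateCurve, b₂, b₄, b₆, vcX]
    ring
  refine ⟨b, C, hb, fun h => hΔ (by linear_combination b ^ 5 * h), hC, ?_, ?_, h2, h1, hd, ?_⟩
  · rw [hx1]; simp [vcX]
  · rw [lineParam, h2]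
    field_simp
    linear_combination -h1
  · rw [show algebraMap ℚ Qb E.j = (E⁄Qb).j from (E.map_j _).symm, ← hj, WeierstrassCurve.j,
      Units.val_inv_eq_inv_val, coe_Δ', inv_mul_eq_div, div_mul_eq_mul_div,
      div_eq_iff (tateCurve b b).isUnit_Δ.ne_zero, FA.Thirteen.Δ_tateCurve]
    simp only [tateCurve, WeierstrassCurve.c₄, WeierstrassCurve.b₂, WeierstrassCurve.b₄]
    ring

/-- The parameter is rational and gives `j`. -/
theorem lineParam_rat {R : (E.toAffine⁄Qb).Point} (hR : addOrderOf R = 5)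
    (hst : ∀ σ : GQ, ∃ c : ℤ, c • R = Affine.Point.map σ.toAlgHom R) :
    ∃ t : ℚ, (t : Qb) = lineParam R ∧ t ≠ 0 ∧ E.j * t = (t ^ 2 + 10 * t + 5) ^ 3 := by
  have hR5 : (5 : ℤ) • R = 0 := by
    rw [show (5 : ℤ) = ((5 : ℕ) : ℤ) from rfl, natCast_zsmul, ← hR, addOrderOf_nsmul_eq_zero]
  have hfix : ∀ σ : GQ, σ (lineParam R) = lineParam R := by
    intro σ
    obtain ⟨c, hc⟩ := hst σ
    have hσx : ∀ n : ℤ, σ (FA.EC.xc (W := E⁄Qb) (n • R)) =
        FA.EC.xc (W := E⁄Qb) ((c * n) • R) := by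
      intro n
      rw [mul_comm c n, mul_zsmul, hc, ← map_zsmul]
      rcases hh : n • R with _ | ⟨u, v, huv⟩
      · exact map_zero σ
      · rfl
    have hc5 : ¬ (5 : ℤ) ∣ c := fun ⟨k, hk⟩ => by
      have h0 : Affine.Point.map (W' := E.toAffine) σ.toAlgHom R = 0 := by
        rw [← hc, hk, mul_comm, mul_zsmul, hR5, zsmul_zero]
      rw [Affine.Point.map_injective σ.toAlgHom (h0.trans (map_zero _).symm),
        addOrderOf_zero] at hR
      norm_num at hR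
    have hψ : ∀ v : Qb, σ (psiSq E v) = psiSq E (σ v) := fun v => by simp [psiSq, map_ofNat]
    have e1 : σ (FA.EC.xc (W := E⁄Qb) R) = FA.EC.xc (W := E⁄Qb) ((c * 1) • R) := by
      rw [← hσx 1, one_zsmul]
    have e2 := hσx 2
    rw [lineParam, map_sub, map_div₀, map_sub, map_pow, map_sub, map_ofNat, hψ, hψ, e1, e2]
    rcases (show ((5 : ℤ) ∣ c - 1 ∨ (5 : ℤ) ∣ c + 1) ∨ ((5 : ℤ) ∣ c - 2 ∨ (5 : ℤ) ∣ c + 2) by
      omega) with hm | hm
    · rw [xc_congr hR5 (n := c * 1) (m := 1) (by omega),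
        xc_congr hR5 (n := c * 2) (m := 2) (by omega), one_zsmul]
    · rw [xc_congr hR5 (n := c * 1) (m := 2) (by omega),
        xc_congr hR5 (n := c * 2) (m := 1) (by omega), one_zsmul, ← neg_sub (psiSq E _),
        ← neg_sub (FA.EC.xc (W := E⁄Qb) ((2 : ℤ) • R)), Odd.neg_pow (by decide), neg_div_neg_eq]
  obtain ⟨t, ht⟩ := FA.EC.mem_range_of_fixed hfix
  obtain ⟨b, C, hb, hΔ, -, -, htb, -, -, -, hj⟩ := line_data hR
  rw [htb] at ht
  have hbt : b ^ 2 - 11 * b - 1 = (t : Qb) * b := by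
    rw [eq_ratCast] at ht
    rw [ht]; field_simp; ring
  refine ⟨t, by rw [htb, ← ht, eq_ratCast], ?_, (algebraMap ℚ Qb).injective ?_⟩
  · rintro rfl
    exact hΔ (by simpa using hbt)
  · simp only [map_mul, map_pow, map_add, map_ofNat, eq_ratCast] at hj ⊢
    refine mul_right_cancel₀ (pow_ne_zero 6 hb) ?_
    have hq : b ^ 4 - 12 * b ^ 3 + 14 * b ^ 2 + 12 * b + 1 =
        ((t : Qb) ^ 2 + 10 * t + 5) * b ^ 2 := by
      linear_combination (b ^ 2 - 11 * b - 1 + t * b + 10 * b) * hbt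
    rw [hq, hbt] at hj
    linear_combination hj

/-- A curve with nonzero `c₄`, `c₆` has only one translation to a given model. -/
theorem r_unique {W T : WeierstrassCurve Qb} {C C' : VariableChange Qb} (h : C • W = T)
    (h' : C' • W = T) (h4 : T.c₄ ≠ 0) (h6 : T.c₆ ≠ 0) : C.r = C'.r := by
  have e4 : T.c₄ * (C.u : Qb) ^ 4 = W.c₄ := by rw [← h, variableChange_c₄]; simp [mul_comm]
  have e4' : T.c₄ * (C'.u : Qb) ^ 4 = W.c₄ := by rw [← h', variableChange_c₄]; simp [mul_comm]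
  have e6 : T.c₆ * (C.u : Qb) ^ 6 = W.c₆ := by rw [← h, variableChange_c₆]; simp [mul_comm]
  have e6' : T.c₆ * (C'.u : Qb) ^ 6 = W.c₆ := by rw [← h', variableChange_c₆]; simp [mul_comm]
  have f4 : (C.u : Qb) ^ 4 = (C'.u : Qb) ^ 4 := mul_left_cancel₀ h4 (e4.trans e4'.symm)
  have f6 : (C.u : Qb) ^ 6 = (C'.u : Qb) ^ 6 := mul_left_cancel₀ h6 (e6.trans e6'.symm)
  have f2 : (C.u : Qb) ^ 2 = (C'.u : Qb) ^ 2 :=
    mul_left_cancel₀ (pow_ne_zero 4 C.u.ne_zero) (by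
      linear_combination f6 - (C'.u : Qb) ^ 2 * f4)
  have e2 : T.b₂ * (C.u : Qb) ^ 2 = W.b₂ + 12 * C.r := by
    rw [← h, variableChange_b₂]; simp [mul_comm]
  have e2' : T.b₂ * (C'.u : Qb) ^ 2 = W.b₂ + 12 * C'.r := by
    rw [← h', variableChange_b₂]; simp [mul_comm]
  rw [f2, e2'] at e2
  linear_combination -(1 / 12 : Qb) * e2

/-- **The parameter determines the line.** -/
theorem lineParam_injective {R R' : (E.toAffine⁄Qb).Point} (hR : addOrderOf R = 5)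
    (hR' : addOrderOf R' = 5) {t : ℚ} (ht : (t : Qb) = lineParam R)
    (h : lineParam R' = lineParam R) : R' ∈ AddSubgroup.zmultiples R := by
  obtain ⟨b, C, hb, -, hC, hr, hτ, -, -, -, -⟩ := line_data hR
  rw [hτ] at ht h
  have key : ∀ S : (E.toAffine⁄Qb).Point, ∀ b' : Qb, ∀ C' : VariableChange Qb,
      C' • (E⁄Qb) = tateCurve b' b' → C'.r = FA.EC.xc (W := E⁄Qb) S → addOrderOf S = 5 → b' = b →
      S ∈ AddSubgroup.zmultiples R := by
    intro S b' C' hC' hr' hS hbb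
    subst hbb
    have hq : ∀ w : ℚ, w ^ 2 + 10 * w + 5 ≠ 0 ∧ w ^ 2 + 4 * w - 1 ≠ 0 ∧
        w ^ 2 + 22 * w + 125 ≠ 0 := fun w => by
      refine ⟨fun h0 => ?_, fun h0 => ?_, fun h0 => by nlinarith [sq_nonneg (w + 11)]⟩
      · have h20 : IsSquare ((20 : ℕ) : ℚ) := ⟨w + 5, by push_cast; linear_combination -h0⟩
        rw [Rat.isSquare_natCast_iff] at h20
        revert h20
        decide +kernel
      · have h5 : IsSquare ((5 : ℕ) : ℚ) := ⟨w + 2, by push_cast; linear_combination -h0⟩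
        rw [Rat.isSquare_natCast_iff] at h5
        exact Nat.prime_five.prime.not_isSquare h5
    have hqt := hq t
    rw [← (algebraMap ℚ Qb).injective.ne_iff, ← (algebraMap ℚ Qb).injective.ne_iff,
      ← (algebraMap ℚ Qb).injective.ne_iff] at hqt
    simp only [map_add, map_sub, map_mul, map_pow, map_ofNat, map_zero, map_one, eq_ratCast, ht]
      at hqt
    have hτb : (b' - 1 / b' - 11) * b' = b' ^ 2 - 11 * b' - 1 := by field_simp; ring
    have h4 : (tateCurve b' b').c₄ ≠ 0 := fun h0 => by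
      refine hqt.1 (mul_right_cancel₀ (pow_ne_zero 2 hb) ?_)
      rw [show (tateCurve b' b').c₄ = b' ^ 4 - 12 * b' ^ 3 + 14 * b' ^ 2 + 12 * b' + 1 by
        simp only [tateCurve, WeierstrassCurve.c₄, b₂, b₄]; ring] at h0
      linear_combination h0 + ((b' - 1 / b' - 11) * b' + (b' ^ 2 - 11 * b' - 1) + 10 * b') * hτb
    have h6 : (tateCurve b' b').c₆ ≠ 0 := fun h0 => by
      rw [show (tateCurve b' b').c₆ = -((b' ^ 2 + 1) *
          (b' ^ 4 - 18 * b' ^ 3 + 74 * b' ^ 2 + 18 * b' + 1)) by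
        simp only [tateCurve, WeierstrassCurve.c₆, b₂, b₄, b₆]; ring, neg_eq_zero,
        mul_eq_zero] at h0
      rcases h0 with h0 | h0
      · refine hqt.2.2 (mul_right_cancel₀ (pow_ne_zero 2 hb) ?_)
        linear_combination (b' ^ 2 + 1) * h0 +
          ((b' - 1 / b' - 11) * b' + (b' ^ 2 - 11 * b' - 1) + 22 * b') * hτb
      · refine hqt.2.1 (mul_right_cancel₀ (pow_ne_zero 2 hb) ?_)
        linear_combination h0 +
          ((b' - 1 / b' - 11) * b' + (b' ^ 2 - 11 * b' - 1) + 4 * b') * hτb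
    have hx := (hr.symm.trans (r_unique hC hC' h4 h6)).trans hr'
    obtain ⟨u, v, hn, rfl⟩ := FA.EC.exists_some_of_ne_zero (W := E⁄Qb) (P := R)
      (fun h0 => by rw [h0, addOrderOf_zero] at hR; norm_num at hR)
    obtain ⟨u', v', hn', rfl⟩ := FA.EC.exists_some_of_ne_zero (W := E⁄Qb) (P := S)
      (fun h0 => by rw [h0, addOrderOf_zero] at hS; norm_num at hS)
    rw [FA.EC.xc_some, FA.EC.xc_some] at hx
    subst hx
    rcases FA.Thirteen.eq_or_eq_neg_of_X_eq (W := E⁄Qb) (h₁ := hn') (h₂ := hn) with e | e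
    · exact AddSubgroup.mem_zmultiples_iff.2 ⟨1, by rw [one_zsmul]; exact e.symm⟩
    · exact AddSubgroup.mem_zmultiples_iff.2 ⟨-1, by rw [neg_one_zsmul]; exact e.symm⟩
  obtain ⟨b', C', hb', -, hC', hr', hτ', h2', -, hd', -⟩ := line_data hR'
  rw [hτ'] at h
  rcases mul_eq_zero.mp (show (b' - b) * (b * b' + 1) = 0 by
    field_simp at h; linear_combination h) with e | e
  · exact key R' b' C' hC' hr' hR' (sub_eq_zero.mp e)
  have hR5 : (5 : ℤ) • R' = 0 := by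
    rw [show (5 : ℤ) = ((5 : ℕ) : ℤ) from rfl, natCast_zsmul, ← hR', addOrderOf_nsmul_eq_zero]
  have hS : addOrderOf ((2 : ℤ) • R') = 5 := by
    rw [show (2 : ℤ) = ((2 : ℕ) : ℤ) from rfl, natCast_zsmul, addOrderOf_nsmul' _ (by norm_num),
      hR']
    norm_num
  obtain ⟨b₂', C₂, -, -, hC₂, hr₂, -, -, h1₂, hd₂, -⟩ := line_data hS
  have hb₂ : b₂' = b := by
    rw [← mul_zsmul, xc_congr hR5 (n := 2 * 2) (m := 1) (by norm_num), one_zsmul, h2'] at h1₂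
    refine mul_right_cancel₀ (pow_ne_zero 3 hd') ?_
    refine mul_right_cancel₀ hb' ?_
    linear_combination h1₂ -
      (FA.EC.xc (W := E⁄Qb) ((2 : ℤ) • R') - FA.EC.xc (W := E⁄Qb) R') ^ 3 * e
  have := key _ b₂' C₂ hC₂ hr₂ hS hb₂
  obtain ⟨k, hk⟩ := AddSubgroup.mem_zmultiples_iff.1 this
  refine AddSubgroup.mem_zmultiples_iff.2 ⟨3 * k, ?_⟩
  rw [mul_zsmul, hk, ← mul_zsmul, show (3 : ℤ) * 2 = 1 + 5 by norm_num, add_zsmul, hR5, add_zero,
    one_zsmul]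

end FA.X0OneTwentyFive

end
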