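import Fermat.Agent.Regular.CaseTwo
import Fermat.Agent.Regular.VandiverReal

/-!
# `x⁵ + y⁵ = ε λ^(5k+3) z⁵` in `ℤ[ζ₅]`

Kummer's descent lowers the exponent of `λ` by `5`; the unit that appears is congruent to an
integer modulo `λ³`, hence, being then real, modulo `5`, hence a fifth power.
-/

set_option autoImplicit false
set_option linter.unusedSectionVars false
set_option linter.style.haveILetI false

noncomputable section

open NumberField Finset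
open FA.Regular

namespace FA.X0OneTwentyFive

variable (K : Type*) [Field K] [NumberField K] [IsCyclotomicExtension {5} ℚ K]

/-- The root of unity. -/
abbrev zeta : 𝓞 K := FA.Ext.zetaInt 5 K

/-- Complex conjugation. -/
abbrev conj : 𝓞 K ≃+* 𝓞 K := cj 5 K

/-- The prime over `5`. -/
abbrev lam : 𝓞 K := zeta K - 1

theorem cycloRing : CycloRing (𝓞 K) 5 (zeta K) := cycloRing_zetaInt 5 K (by norm_num)

theorem lam_prime : Prime (lam K) := (cycloRing K).lam_prime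

theorem five_dvd_lam_four : lam K ^ 4 ∣ (5 : 𝓞 K) := by
  simpa using (cycloRing K).lam_dvd_prime

theorem lam_four_dvd_five : (5 : 𝓞 K) ∣ lam K ^ 4 := by
  simpa using (cycloRing K).assoc.symm.dvd

/-- The conjugate of `λ ^ n` is an associate. -/
theorem dvd_conj {n : ℕ} {x : 𝓞 K} (h : lam K ^ n ∣ x) : lam K ^ n ∣ conj K x := by
  obtain ⟨c, rfl⟩ := h
  refine ⟨(-(zeta K ^ 4)) ^ n * conj K c, ?_⟩
  rw [map_mul, map_pow, show conj K (lam K) = -(zeta K ^ (5 - 1) * lam K) from cj_lam 5 K,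
    show (-(zeta K ^ (5 - 1) * lam K)) = (-(zeta K ^ 4)) * lam K by ring, mul_pow]
  ring

/-- The conjugate of a unit is a root of unity times it. -/
theorem conj_unit (u : (𝓞 K)ˣ) : ∃ j : ℕ, conj K u = zeta K ^ j * (u : 𝓞 K) :=
  exists_conj_eq_zeta_pow 5 K (by norm_num) (x := (u : 𝓞 K))
    ((cycloRing K).lam_not_dvd_unit u)
    (Units.map (conj K).toRingHom.toMonoidHom u * u⁻¹) (by simp)

/-- A power of `ζ` congruent to `1` modulo `λ²` is `1`. -/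
theorem zeta_pow_eq_one {j : ℕ} (h : lam K ^ 2 ∣ zeta K ^ j - 1) : zeta K ^ j = 1 := by
  obtain ⟨c, hc⟩ := h
  obtain ⟨d, hd⟩ := (cycloRing K).geom_sum_congr j
  have hg : lam K * (∑ k ∈ range j, zeta K ^ k) = zeta K ^ j - 1 := mul_geom_sum (zeta K) j
  have h1 : (∑ k ∈ range j, zeta K ^ k) = lam K * c :=
    mul_left_cancel₀ (lam_prime K).ne_zero (by rw [hg, hc]; ring)
  have h2 : lam K ∣ ((j : ℤ) : 𝓞 K) :=
    ⟨c - d, by push_cast; linear_combination h1 - hd⟩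
  obtain ⟨k, hk⟩ := Int.natCast_dvd_natCast.1 ((cycloRing K).int_dvd _ h2)
  rw [hk, pow_mul, (cycloRing K).prim.pow_eq_one, one_pow]

/-- A real element divisible by `λ³` is divisible by `λ⁴`. -/
theorem real_four_dvd {x : 𝓞 K} (hx : conj K x = x) (h : lam K ^ 3 ∣ x) : lam K ^ 4 ∣ x := by
  have hl := (lam_prime K).ne_zero
  obtain ⟨v, hv⟩ := associated_realLam 5 K
  obtain ⟨c, hc⟩ := h
  set y := (↑v⁻¹ : 𝓞 K) * (lam K * c) with hy
  have hxy : x = realLam 5 K * y := by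
    rw [hc, hy, ← hv]
    linear_combination -(lam K ^ 3 * c) * v.mul_inv
  have hπ : realLam 5 K ≠ 0 := by
    rw [← hv]; exact mul_ne_zero (pow_ne_zero _ hl) v.ne_zero
  have hyr : conj K y = y := by
    refine mul_left_cancel₀ hπ ?_
    have := congrArg (conj K) hxy
    rw [map_mul, hx, show conj K (realLam 5 K) = realLam 5 K from cj_realLam 5 K] at this
    rw [← this, hxy]
  obtain ⟨d, hd⟩ := real_sq_dvd 5 K (by norm_num) hyr
    (dvd_mul_of_dvd_right (dvd_mul_right _ _) _)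
  refine ⟨(v : 𝓞 K) * d, ?_⟩
  rw [hxy, ← hv, hd]
  ring

/-- A unit congruent to an integer modulo `λ³` is congruent to it modulo `5`. -/
theorem unit_congr {η : (𝓞 K)ˣ} {g : ℤ} (h : lam K ^ 3 ∣ (η : 𝓞 K) - (g : 𝓞 K)) :
    (5 : 𝓞 K) ∣ (η : 𝓞 K) - (g : 𝓞 K) := by
  obtain ⟨j, hj⟩ := conj_unit K η
  have h' : lam K ^ 3 ∣ (zeta K ^ j - 1) * (η : 𝓞 K) := by
    have := dvd_sub (dvd_conj K h) h
    rw [map_sub, map_intCast, hj] at this
    convert this using 1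
    ring
  rw [Units.dvd_mul_right] at h'
  rw [zeta_pow_eq_one K ((pow_dvd_pow _ (by norm_num)).trans h'), one_mul] at hj
  exact (lam_four_dvd_five K).trans (real_four_dvd K (by rw [map_sub, map_intCast, hj]) h)

variable [IsPrincipalIdealRing (𝓞 K)]

/-- The descent step, for coprime `x`, `y` with `λ² ∣ x + y`. -/
theorem descent (hK : KummerProp (𝓞 K) 5) (k : ℕ) {x y z : 𝓞 K} (ε : (𝓞 K)ˣ)
    (hy : ¬ lam K ∣ y) (hco : IsCoprime x y) (hz : ¬ lam K ∣ z)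
    (heq : x ^ 5 + y ^ 5 = (ε : 𝓞 K) * lam K ^ (5 * k + 3) * z ^ 5)
    {w : 𝓞 K} (hxy : x + y = lam K * w) (hw : lam K ∣ w) :
    ∃ k' : ℕ, k = k' + 1 ∧ ∃ (x' y' z' : 𝓞 K) (ε' : (𝓞 K)ˣ), ¬ lam K ∣ x' ∧ ¬ lam K ∣ y' ∧
      ¬ lam K ∣ z' ∧ x' ^ 5 + y' ^ 5 = (ε' : 𝓞 K) * lam K ^ (5 * k' + 3) * z' ^ 5 := by
  haveI : Fact (Nat.Prime 5) := ⟨Nat.prime_five⟩
  have H := cycloRing K
  have hlam := lam_prime K
  set a : ℕ → 𝓞 K := fun i => w + (∑ m ∈ range i, zeta K ^ m) * y with ha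
  have hfac : ∀ i, x + zeta K ^ i * y = lam K * a i := fun i => by
    have h : lam K * (∑ m ∈ range i, zeta K ^ m) = zeta K ^ i - 1 := mul_geom_sum _ i
    simp only [ha]
    linear_combination hxy - y * h
  have hndvd : ∀ i, 0 < i → i < 5 → ¬ lam K ∣ a i := by
    intro i hi0 hip h
    have h1 : lam K ∣ (∑ m ∈ range i, zeta K ^ m) * y := by simpa [ha] using dvd_sub h hw
    rcases hlam.dvd_or_dvd h1 with h2 | h2
    · have h3 : lam K ∣ ((i : ℤ) : 𝓞 K) := by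
        have := dvd_sub h2 (H.geom_sum_congr i)
        simpa using this
      have := H.int_dvd _ h3
      omega
    · exact hy h2
  have hprod : lam K ^ 5 * (a 0 * ∏ i ∈ Ico 1 5, a i) =
      (ε : 𝓞 K) * lam K ^ (5 * k + 3) * z ^ 5 := by
    rw [← heq, H.pow_add_pow_eq_prod (by decide), show range 5 = insert 0 (Ico 1 5) by decide,
      Finset.prod_insert (by simp)]
    simp_rw [hfac]
    rw [Finset.prod_mul_distrib, Finset.prod_const]
    simp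
    ring
  obtain ⟨k', rfl⟩ : ∃ k', k = k' + 1 := by
    rcases k with _ | k'
    · exfalso
      have h2 : lam K ^ 2 * (a 0 * ∏ i ∈ Ico 1 5, a i) = (ε : 𝓞 K) * z ^ 5 :=
        mul_left_cancel₀ (pow_ne_zero 3 hlam.ne_zero) (by linear_combination hprod)
      rcases hlam.dvd_or_dvd (h2 ▸ dvd_mul_of_dvd_left (dvd_pow_self _ two_ne_zero) _ :
        lam K ∣ (ε : 𝓞 K) * z ^ 5) with h | h
      · exact H.lam_not_dvd_unit ε h
      · exact hz (hlam.dvd_of_dvd_pow h)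
    · exact ⟨k', rfl⟩
  refine ⟨k', rfl, ?_⟩
  have hprod1 : a 0 * ∏ i ∈ Ico 1 5, a i = (ε : 𝓞 K) * lam K ^ (5 * k' + 3) * z ^ 5 :=
    mul_left_cancel₀ (pow_ne_zero 5 hlam.ne_zero) (by linear_combination hprod)
  have hrest : ¬ lam K ∣ ∏ i ∈ Ico 1 5, a i := fun h => by
    obtain ⟨i, hi, hdvd⟩ := (hlam.dvd_finsetProd_iff _).1 h
    rw [Finset.mem_Ico] at hi
    exact hndvd i (by omega) hi.2 hdvd
  obtain ⟨w', hw'⟩ : lam K ^ (5 * k' + 3) ∣ a 0 :=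
    hlam.pow_dvd_of_dvd_mul_right _ hrest
      (hprod1 ▸ dvd_mul_of_dvd_left (dvd_mul_left _ _) _)
  have hprod' : w' * ∏ i ∈ Ico 1 5, a i = (ε : 𝓞 K) * z ^ 5 :=
    mul_left_cancel₀ (pow_ne_zero (5 * k' + 3) hlam.ne_zero)
      (by rw [hw'] at hprod1; linear_combination hprod1)
  have hw'n : ¬ lam K ∣ w' := fun h => by
    rcases hlam.dvd_or_dvd (hprod' ▸ dvd_mul_of_dvd_left h _) with h | h
    · exact H.lam_not_dvd_unit ε h
    · exact hz (hlam.dvd_of_dvd_pow h)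
  have hcop : ∀ i j, i < 5 → j < 5 → i ≠ j → IsCoprime (a i) (a j) := by
    intro i j hi hj hij
    obtain ⟨U, hU⟩ := H.geom_sum_sub_isUnit hi hj hij
    obtain ⟨A, B, hAB⟩ := hco
    have hyab : y = (↑U⁻¹ : 𝓞 K) * (a i - a j) := by
      have : a i - a j = (U : 𝓞 K) * y := by simp only [ha]; rw [hU]; ring
      rw [this, Units.inv_mul_cancel_left]
    have hwab : w = a i - (∑ m ∈ range i, zeta K ^ m) * y := by simp [ha]
    set c := B - A - A * lam K * (∑ m ∈ range i, zeta K ^ m) with hc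
    refine ⟨A * lam K + c * ↑U⁻¹, -(c * ↑U⁻¹), ?_⟩
    linear_combination hAB + (-A) * hxy + (-(A * lam K)) * hwab + (-c) * hyab
  have hw'cop : ∀ i ∈ Ico 1 5, IsCoprime w' (a i) := fun i hi => by
    rw [Finset.mem_Ico] at hi
    have := hcop 0 i (by norm_num) hi.2 (by omega)
    rw [hw'] at this
    exact this.of_mul_left_right
  have hassoc : Associated (z ^ 5) (w' * ∏ i ∈ Ico 1 5, a i) := ⟨ε, by rw [hprod']; ring⟩
  obtain ⟨t0, u0, hu0⟩ :=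
    exists_associated_pow_of_associated_pow_mul (IsCoprime.prod_right hw'cop) hassoc
  have hsel : ∀ i ∈ Ico 1 5, ∃ t : 𝓞 K, Associated (t ^ 5) (a i) := by
    intro i hi
    have hs : a i * (w' * ∏ j ∈ (Ico 1 5).erase i, a j) = w' * ∏ j ∈ Ico 1 5, a j := by
      rw [← Finset.mul_prod_erase _ _ hi]; ring
    refine exists_associated_pow_of_associated_pow_mul ?_ (hs.symm ▸ hassoc)
    refine IsCoprime.mul_right (hw'cop i hi).symm (IsCoprime.prod_right fun j hj => ?_)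
    rw [Finset.mem_erase, Finset.mem_Ico] at hj
    rw [Finset.mem_Ico] at hi
    exact hcop i j hi.2 hj.2.2 (Ne.symm hj.1)
  obtain ⟨t1, u1, hu1⟩ := hsel 1 (by decide)
  obtain ⟨t4, u4, hu4⟩ := hsel 4 (by decide)
  have hrel : a 1 + zeta K * a 4 = (1 + zeta K) * a 0 := by
    refine mul_left_cancel₀ hlam.ne_zero ?_
    have e0 := hfac 0
    have e1 := hfac 1
    have e4 := hfac 4
    have hz5 : zeta K * zeta K ^ 4 = 1 := by rw [← pow_succ', H.prim.pow_eq_one]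
    rw [pow_one] at e1
    rw [pow_zero, one_mul] at e0
    linear_combination -e1 - zeta K * e4 + (1 + zeta K) * e0 + y * hz5
  obtain ⟨uz, huz⟩ := H.prim.isUnit (k := 5) (by norm_num)
  obtain ⟨u3, hu3⟩ : IsUnit (1 + zeta K) := by
    have h := H.prim.geom_sum_isUnit (by norm_num : 2 ≤ 5) (j := 2) (by norm_num)
    simpa [Finset.sum_range_succ] using h
  set η : (𝓞 K)ˣ := uz * u4 * u1⁻¹ with hη
  set ε' : (𝓞 K)ˣ := u3 * u0 * u1⁻¹ with hε'
  have hnew : t1 ^ 5 + (η : 𝓞 K) * t4 ^ 5 = (ε' : 𝓞 K) * lam K ^ (5 * k' + 3) * t0 ^ 5 := by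
    have h : t1 ^ 5 * (u1 : 𝓞 K) + (uz : 𝓞 K) * (t4 ^ 5 * (u4 : 𝓞 K)) =
        (u3 : 𝓞 K) * (lam K ^ (5 * k' + 3) * (t0 ^ 5 * (u0 : 𝓞 K))) := by
      rw [hu1, hu4, hu0, huz, hu3, ← hw', hrel]
    simp only [hη, hε', Units.val_mul]
    linear_combination (↑u1⁻¹ : 𝓞 K) * h - t1 ^ 5 * u1.mul_inv
  have hlt : ∀ {t b : 𝓞 K} {u : (𝓞 K)ˣ}, t ^ 5 * (u : 𝓞 K) = b → ¬ lam K ∣ b → ¬ lam K ∣ t :=
    fun h hb hd => hb (h ▸ dvd_mul_of_dvd_left (dvd_pow hd (by norm_num)) _)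
  have ht1n := hlt hu1 (hndvd 1 one_pos (by norm_num))
  have ht4n := hlt hu4 (hndvd 4 (by norm_num) (by norm_num))
  obtain ⟨v, hv⟩ : ∃ v : (𝓞 K)ˣ, v ^ 5 = η := by
    refine hK η ?_
    obtain ⟨n1, hn1⟩ := H.pow_prime_int t1
    obtain ⟨n4, hn4⟩ := H.pow_prime_int t4
    have hn4' : ¬ (5 : ℤ) ∣ n4 := by
      rintro ⟨c, hc⟩
      have h1 : lam K ∣ t4 ^ 5 - (n4 : 𝓞 K) := H.lam_dvd_prime_one.trans hn4
      have h2 : lam K ∣ (n4 : 𝓞 K) := by
        rw [hc]; push_cast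
        exact dvd_mul_of_dvd_left (by simpa using H.lam_dvd_prime_one) _
      exact ht4n (hlam.dvd_of_dvd_pow (by simpa using dvd_add h1 h2))
    obtain ⟨A, B, hAB⟩ : IsCoprime (5 : ℤ) n4 :=
      (Nat.prime_iff_prime_int.mp Nat.prime_five).coprime_iff_not_dvd.2 hn4'
    refine ⟨-(n1 * B), ?_⟩
    have hcg : lam K ^ 3 ∣ (η : 𝓞 K) - ((-(n1 * B) : ℤ) : 𝓞 K) := by
      have h53 : lam K ^ 3 ∣ (5 : 𝓞 K) :=
        (pow_dvd_pow _ (by norm_num)).trans (five_dvd_lam_four K)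
      obtain ⟨c1, hc1⟩ := h53.trans (by simpa using hn1)
      obtain ⟨c4, hc4⟩ := h53.trans (by simpa using hn4)
      obtain ⟨c5, hc5⟩ := h53
      have hABR : (A : 𝓞 K) * (5 : 𝓞 K) + (B : 𝓞 K) * (n4 : 𝓞 K) = 1 := by
        exact_mod_cast congrArg (Int.cast : ℤ → 𝓞 K) hAB
      refine ⟨(η : 𝓞 K) * (A : 𝓞 K) * c5 + (B : 𝓞 K) *
        ((ε' : 𝓞 K) * lam K ^ (5 * k') * t0 ^ 5 - c1 - (η : 𝓞 K) * c4), ?_⟩
      push_cast
      linear_combination (-(η : 𝓞 K)) * hABR + (B : 𝓞 K) * hnew - (B : 𝓞 K) * hc1 -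
        (B : 𝓞 K) * (η : 𝓞 K) * hc4 + (η : 𝓞 K) * (A : 𝓞 K) * hc5
    simpa using unit_congr K hcg
  refine ⟨t1, (v : 𝓞 K) * t4, t0, ε', ht1n, fun h => ?_, hlt hu0 hw'n, ?_⟩
  · exact (hlam.dvd_or_dvd h).elim (H.lam_not_dvd_unit v) ht4n
  · rw [mul_pow (v : 𝓞 K), ← Units.val_pow_eq_pow_val, hv, hnew]

/-- **No solution of `x⁵ + y⁵ = ε λ^(5k+3) z⁵`**. -/
theorem no_solution (hK : KummerProp (𝓞 K) 5) : ∀ (k : ℕ) (x y z : 𝓞 K) (ε : (𝓞 K)ˣ),
    ¬ lam K ∣ x → ¬ lam K ∣ y → ¬ lam K ∣ z →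
      x ^ 5 + y ^ 5 = (ε : 𝓞 K) * lam K ^ (5 * k + 3) * z ^ 5 → False := by
  haveI : Fact (Nat.Prime 5) := ⟨Nat.prime_five⟩
  intro k
  induction k using Nat.strong_induction_on with
  | _ k ih =>
    intro x y z ε hx hy hz heq
    have H := cycloRing K
    have hlam := lam_prime K
    obtain ⟨x₁, y₁, g, hrp, rfl, rfl⟩ := UniqueFactorizationMonoid.exists_reduced_factors x
      (fun h => hx (h ▸ dvd_zero _)) y
    obtain ⟨z₁, rfl⟩ : g ∣ z := by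
      have hg : IsCoprime g (lam K) := (hlam.coprime_iff_not_dvd.2
        fun h => hx (dvd_mul_of_dvd_left h _)).symm
      refine (IsIntegrallyClosed.pow_dvd_pow_iff (by norm_num : 5 ≠ 0)).1
        ((hg.pow (m := 5) (n := 5 * k + 3)).dvd_of_dvd_mul_left
        ((Units.dvd_mul_left (u := ε)).1 ⟨x₁ ^ 5 + y₁ ^ 5, ?_⟩))
      rw [← mul_assoc, ← heq]; ring
    have hg0 : g ≠ 0 := fun h => hx (by rw [h, zero_mul]; exact dvd_zero _)
    have heq₁ : x₁ ^ 5 + y₁ ^ 5 = (ε : 𝓞 K) * lam K ^ (5 * k + 3) * z₁ ^ 5 :=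
      mul_left_cancel₀ (pow_ne_zero 5 hg0) (by linear_combination heq)
    have hy₁ : ¬ lam K ∣ y₁ := fun h => hy (dvd_mul_of_dvd_right h _)
    have hz₁ : ¬ lam K ∣ z₁ := fun h => hz (dvd_mul_of_dvd_right h _)
    have hco := isRelPrime_iff_isCoprime.1 hrp
    have hprod : lam K ∣ ∏ i ∈ range 5, (x₁ + zeta K ^ i * y₁) := by
      rw [← H.pow_add_pow_eq_prod (by decide), heq₁]
      exact dvd_mul_of_dvd_left (dvd_mul_of_dvd_right (dvd_pow_self _ (by omega)) _) _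
    obtain ⟨i, -, hi⟩ := (hlam.dvd_finsetProd_iff _).1 hprod
    have hxy : lam K ∣ x₁ + y₁ := by
      have h : lam K ∣ (zeta K ^ i - 1) * y₁ :=
        dvd_mul_of_dvd_left (sub_one_dvd_pow_sub_one _ i) _
      have := dvd_sub hi h
      convert this using 1; ring
    obtain ⟨w, hw⟩ := hxy
    obtain ⟨A, B, hAB⟩ := hlam.coprime_iff_not_dvd.2 hy₁
    obtain ⟨n, hn⟩ := H.residue (w * B)
    -- choose `s` with `λ ∣ w + s y`
    set s : ℕ := ((-n) % (5 : ℤ)).toNat with hs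
    have hsn : lam K ∣ (s : 𝓞 K) + (n : 𝓞 K) := by
      obtain ⟨c, hc⟩ : (5 : ℤ) ∣ (s : ℤ) + n := by omega
      rw [show ((s : 𝓞 K) + (n : 𝓞 K)) = (5 : 𝓞 K) * (c : 𝓞 K) by
        exact_mod_cast congrArg (Int.cast : ℤ → 𝓞 K) hc]
      exact dvd_mul_of_dvd_left (by simpa using H.lam_dvd_prime_one) _
    have hzu : IsUnit (zeta K ^ s) := (H.prim.isUnit (by norm_num)).pow s
    obtain ⟨k', hk', x', y', z', ε', hx', hy', hz', heq'⟩ :=
      descent K hK k (x := x₁) (y := zeta K ^ s * y₁) ε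
        (fun h => (hlam.dvd_or_dvd h).elim
          (fun h => hlam.not_isUnit (isUnit_of_dvd_unit h hzu)) hy₁)
        ((isCoprime_mul_unit_left_right hzu _ _).2 hco) hz₁
        (by rw [mul_pow, ← pow_mul, mul_comm s 5, pow_mul, H.prim.pow_eq_one, one_pow, one_mul,
              heq₁])
        (w := w + (∑ j ∈ range s, zeta K ^ j) * y₁)
        (by
          have h : lam K * (∑ j ∈ range s, zeta K ^ j) = zeta K ^ s - 1 := mul_geom_sum _ s
          linear_combination hw - y₁ * h)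
        (by
          obtain ⟨c1, hc1⟩ := hn
          obtain ⟨c2, hc2⟩ := H.geom_sum_congr s
          obtain ⟨c3, hc3⟩ := hsn
          refine ⟨w * A + y₁ * c1 + y₁ * c2 + y₁ * c3, ?_⟩
          linear_combination (-w) * hAB + y₁ * hc1 + y₁ * hc2 + y₁ * hc3)
    exact ih k' (by omega) x' y' z' ε' hx' hy' hz' heq'

/-- `ε γ⁵` congruent to its conjugate modulo `λ³` has `ε` real. -/
theorem conj_eq_of_congr (ε : (𝓞 K)ˣ) {γ : 𝓞 K} (hγ : ¬ lam K ∣ γ)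
    (h : lam K ^ 3 ∣ (ε : 𝓞 K) * γ ^ 5 - conj K ((ε : 𝓞 K) * γ ^ 5)) :
    conj K (ε : 𝓞 K) = (ε : 𝓞 K) ∧
      lam K ^ 4 ∣ (ε : 𝓞 K) * γ ^ 5 - conj K ((ε : 𝓞 K) * γ ^ 5) := by
  haveI : Fact (Nat.Prime 5) := ⟨Nat.prime_five⟩
  have H := cycloRing K
  obtain ⟨g, hg⟩ := H.pow_prime_int γ
  obtain ⟨j, hj⟩ := conj_unit K ε
  have hg4 : lam K ^ 4 ∣ γ ^ 5 - (g : 𝓞 K) := (five_dvd_lam_four K).trans (by simpa using hg)
  have hg' : lam K ^ 4 ∣ conj K (γ ^ 5) - (g : 𝓞 K) := by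
    have := dvd_conj K hg4
    rwa [map_sub, map_intCast] at this
  rw [map_mul, hj] at h ⊢
  have h1 : lam K ^ 3 ∣ (zeta K ^ j - 1) * ((ε : 𝓞 K) * γ ^ 5) := by
    obtain ⟨c, hc⟩ := h
    obtain ⟨d, hd⟩ := hg4
    obtain ⟨d', hd'⟩ := hg'
    refine ⟨-c + zeta K ^ j * (ε : 𝓞 K) * lam K * d - zeta K ^ j * (ε : 𝓞 K) * lam K * d', ?_⟩
    linear_combination -hc + zeta K ^ j * (ε : 𝓞 K) * hd - zeta K ^ j * (ε : 𝓞 K) * hd'
  have h2 : lam K ^ 3 ∣ zeta K ^ j - 1 :=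
    ((lam_prime K).coprime_iff_not_dvd.2 fun h' =>
      ((lam_prime K).dvd_or_dvd h').elim (H.lam_not_dvd_unit ε)
        fun h'' => hγ ((lam_prime K).dvd_of_dvd_pow h'')).pow_left.dvd_of_dvd_mul_right h1
  have hj1 := zeta_pow_eq_one K ((pow_dvd_pow _ (by norm_num)).trans h2)
  rw [hj1, one_mul]
  refine ⟨rfl, ?_⟩
  rw [← mul_sub]
  exact dvd_mul_of_dvd_right (by simpa using dvd_sub hg4 hg') _

/-- **No `ε γ⁵` differs from its conjugate by a unit times `λ^(5k+3) z⁵`**. -/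
theorem no_conj_difference (hK : KummerProp (𝓞 K) 5) (ε η : (𝓞 K)ˣ) {γ z : 𝓞 K} (k : ℕ)
    (hγ : ¬ lam K ∣ γ) (hz : ¬ lam K ∣ z)
    (h : (ε : 𝓞 K) * γ ^ 5 - conj K ((ε : 𝓞 K) * γ ^ 5) =
      (η : 𝓞 K) * lam K ^ (5 * k + 3) * z ^ 5) : False := by
  obtain ⟨hε, -⟩ := conj_eq_of_congr K ε hγ
    (h ▸ dvd_mul_of_dvd_left (dvd_mul_of_dvd_right (pow_dvd_pow _ (by omega)) _) _)
  refine no_solution K hK k γ (-conj K γ) z (ε⁻¹ * η) hγ (fun h' => hγ ?_) hz ?_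
  · have := dvd_conj K (n := 1) (x := conj K γ) (by simpa using h')
    rwa [show conj K (conj K γ) = γ from cj_cj 5 K γ, pow_one] at this
  · rw [map_mul, hε, map_pow] at h
    push_cast
    linear_combination (↑ε⁻¹ : 𝓞 K) * h - (γ ^ 5 - conj K γ ^ 5) * ε.inv_mul

end FA.X0OneTwentyFive

end
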