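import Fermat.Agent.X0OneTwentyFive.Kummer
import Fermat.Agent.Regular.FLT

/-!
# Fifth powers of the quartic norm form of `X₀(25)`

`a⁴ + 5 a³ b + 15 a² b² + 25 a b³ + 25 b⁴` is the norm of `a - b ρ` from `ℤ[ζ₅]`. When it is a fifth
power (times `25`) and `b` (respectively `a / 5`) is a fifth power, `a - b ρ` is a unit times a
fifth power and differs from its conjugate by a unit times `λ^(5k+3) z⁵`, which is impossible.
-/

set_option autoImplicit false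
set_option linter.unusedSectionVars false
set_option linter.style.haveILetI false

noncomputable section

open NumberField
open FA.Regular

namespace FA.X0OneTwentyFive

/-- The quartic form. -/
def normForm {R : Type*} [CommRing R] (a b : R) : R :=
  a ^ 4 + 5 * a ^ 3 * b + 15 * a ^ 2 * b ^ 2 + 25 * a * b ^ 3 + 25 * b ^ 4

variable (K : Type*) [Field K] [NumberField K] [IsCyclotomicExtension {5} ℚ K]

/-- The root `ρ`. -/
def rho₁ : 𝓞 K := -2 - 2 * zeta K ^ 3 - zeta K ^ 4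

/-- A conjugate of `ρ`. -/
def rho₂ : 𝓞 K := -2 - 2 * zeta K - zeta K ^ 3

/-- A conjugate of `ρ`. -/
def rho₃ : 𝓞 K := -2 - 2 * zeta K ^ 4 - zeta K ^ 2

/-- The complex conjugate of `ρ`. -/
def rho₄ : 𝓞 K := -2 - 2 * zeta K ^ 2 - zeta K

theorem sum_zeta : zeta K ^ 4 + zeta K ^ 3 + zeta K ^ 2 + zeta K + 1 = 0 := by
  have h := (cycloRing K).prim.geom_sum_eq_zero (by norm_num)
  simp [Finset.sum_range_succ] at h
  linear_combination h

theorem conj_zeta : conj K (zeta K) = zeta K ^ 4 := cj_zeta 5 K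

theorem conj_rho₁ : conj K (rho₁ K) = rho₄ K := by
  have h5 : zeta K ^ 5 = 1 := (cycloRing K).prim.pow_eq_one
  simp only [rho₁, rho₄, map_sub, map_neg, map_mul, map_pow, map_ofNat, conj_zeta]
  linear_combination (-2 * zeta K ^ 2 * (zeta K ^ 5 + 1) -
    zeta K * (zeta K ^ 10 + zeta K ^ 5 + 1)) * h5

theorem conj_rho₄ : conj K (rho₄ K) = rho₁ K := by
  rw [← conj_rho₁]; exact cj_cj 5 K _

theorem normForm_eq (a b : 𝓞 K) :
    (a - b * rho₁ K) * (a - b * rho₂ K) * (a - b * rho₃ K) * (a - b * rho₄ K) = normForm a b := by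
  set z := zeta K with hz
  have hs := sum_zeta K
  rw [← hz] at hs
  have e1 : rho₁ K + rho₂ K + rho₃ K + rho₄ K = -5 := by
    simp only [rho₁, rho₂, rho₃, rho₄, ← hz]; linear_combination -3 * hs
  have e2 : rho₁ K * rho₂ K + rho₁ K * rho₃ K + rho₁ K * rho₄ K + rho₂ K * rho₃ K +
      rho₂ K * rho₄ K + rho₃ K * rho₄ K = 15 := by
    simp only [rho₁, rho₂, rho₃, rho₄, ← hz]
    linear_combination (2 * z ^ 4 + 5 * z ^ 3 + 2 * z ^ 2 + 9 * z + 9) * hs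
  have e3 : rho₁ K * rho₂ K * rho₃ K + rho₁ K * rho₂ K * rho₄ K + rho₁ K * rho₃ K * rho₄ K +
      rho₂ K * rho₃ K * rho₄ K = -25 := by
    simp only [rho₁, rho₂, rho₃, rho₄, ← hz]
    linear_combination (-2 * z ^ 7 - 6 * z ^ 6 - 13 * z ^ 5 - 10 * z ^ 4 - 20 * z ^ 3 -
      8 * z ^ 2 - 29 * z - 7) * hs
  have e4 : rho₁ K * rho₂ K * rho₃ K * rho₄ K = 25 := by
    simp only [rho₁, rho₂, rho₃, rho₄, ← hz]
    linear_combination (4 * z ^ 9 + 6 * z ^ 8 + 8 * z ^ 7 + 23 * z ^ 6 + 15 * z ^ 5 +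
      12 * z ^ 4 + 20 * z ^ 3 + 8 * z ^ 2 + 33 * z - 9) * hs
  rw [normForm]
  linear_combination -a ^ 3 * b * e1 + a ^ 2 * b ^ 2 * e2 - a * b ^ 3 * e3 + b ^ 4 * e4

/-- `ρ` and its conjugates are divisible by `λ²`, exactly for the two used below. -/
theorem rho₁_eq : rho₁ K = lam K ^ 2 * (-1 - zeta K) := by
  simp only [rho₁, lam]; linear_combination -1 * sum_zeta K

theorem rho₂_eq : rho₂ K = lam K ^ 2 * (-zeta K - zeta K ^ 2 - zeta K ^ 3) := by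
  simp only [rho₂, lam]; linear_combination (zeta K - 2) * sum_zeta K

theorem rho₃_eq : rho₃ K = lam K ^ 2 * (-1 - zeta K - zeta K ^ 2) := by
  simp only [rho₃, lam]; linear_combination -1 * sum_zeta K

theorem rho₄_eq : rho₄ K = lam K ^ 2 * (-zeta K ^ 2 - zeta K ^ 3) := by
  simp only [rho₄, lam]; linear_combination (zeta K - 2) * sum_zeta K

/-- The unit `-(1 + ζ)`. -/
def unitRho : (𝓞 K)ˣ :=
  Units.mkOfMulEqOne (-1 - zeta K) (zeta K + zeta K ^ 3) (by linear_combination -1 * sum_zeta K)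

/-- The unit `(ρ̄ - ρ) / λ³`. -/
def unitDiff : (𝓞 K)ˣ :=
  Units.mkOfMulEqOne (-1 - 2 * zeta K - zeta K ^ 2)
    (2 + zeta K + zeta K ^ 2 + 2 * zeta K ^ 3)
    (by linear_combination (-2 * zeta K - 3) * sum_zeta K)

theorem rho_sub : rho₄ K - rho₁ K = lam K ^ 3 * (unitDiff K : 𝓞 K) := by
  simp only [rho₁, rho₄, lam, unitDiff, Units.val_mkOfMulEqOne]
  linear_combination (zeta K - 1) * sum_zeta K

theorem rho_diff_dvd : (rho₁ K - rho₂ K) ∣ 25 ∧ (rho₁ K - rho₃ K) ∣ 25 ∧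
    (rho₁ K - rho₄ K) ∣ 25 := by
  refine ⟨⟨-15 - 10 * zeta K - 10 * zeta K ^ 2 - 15 * zeta K ^ 3, ?_⟩,
    ⟨-5 * zeta K - 15 * zeta K ^ 2 - 5 * zeta K ^ 3, ?_⟩,
    ⟨-5 * zeta K ^ 2 + 5 * zeta K ^ 3, ?_⟩⟩ <;>
    simp only [rho₁, rho₂, rho₃, rho₄]
  · linear_combination -(15 * zeta K ^ 3 + 10 * zeta K ^ 2 - 5 * zeta K - 25) * sum_zeta K
  · linear_combination -(-5 * zeta K ^ 3 + 25 * zeta K - 25) * sum_zeta K
  · linear_combination -(-5 * zeta K ^ 3 + 25 * zeta K - 25) * sum_zeta K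

variable [IsPrincipalIdealRing (𝓞 K)]

/-- A factor prime to `λ` of a fifth power, sharing only `λ` with the conjugate factors, is a unit
times a fifth power. -/
theorem eq_unit_mul_pow {a b : ℤ} (hab : IsCoprime a b) {M M₂ M₃ M₄ v : 𝓞 K} (g : (𝓞 K)ˣ)
    (hM : ¬ lam K ∣ M) (hprod : M * M₂ * M₃ * M₄ = (g : 𝓞 K) * v ^ 5)
    (h1 : M ∣ (a : 𝓞 K) - (b : 𝓞 K) * rho₁ K) (h2 : M₂ ∣ (a : 𝓞 K) - (b : 𝓞 K) * rho₂ K)
    (h3 : M₃ ∣ (a : 𝓞 K) - (b : 𝓞 K) * rho₃ K) (h4 : M₄ ∣ (a : 𝓞 K) - (b : 𝓞 K) * rho₄ K) :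
    ∃ (ε : (𝓞 K)ˣ) (γ : 𝓞 K), ¬ lam K ∣ γ ∧ M = (ε : 𝓞 K) * γ ^ 5 := by
  have key : ∀ P : 𝓞 K, Prime P → P ∣ M → ∀ r, P ∣ (a : 𝓞 K) - (b : 𝓞 K) * r →
      (rho₁ K - r) ∣ 25 → False := by
    intro P hP hPM r hPr hr
    have hPb : P ∣ (b : 𝓞 K) * (rho₁ K - r) := by
      have := dvd_sub hPr (hPM.trans h1)
      convert this using 1; ring
    rcases hP.dvd_or_dvd hPb with hPb | hPd
    · have hPa : P ∣ (a : 𝓞 K) := by
        have := dvd_add hPr (dvd_mul_of_dvd_left hPb r)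
        rwa [sub_add_cancel] at this
      exact hP.not_isUnit ((hab.map (Int.castRingHom (𝓞 K))).isUnit_of_dvd' hPa hPb)
    · have h5 : P ∣ lam K ^ 8 := by
        refine (hPd.trans hr).trans ?_
        rw [show (25 : 𝓞 K) = 5 * 5 by norm_num, show lam K ^ 8 = lam K ^ 4 * lam K ^ 4 by ring]
        exact mul_dvd_mul (lam_four_dvd_five K) (lam_four_dvd_five K)
      exact hM (((hP.associated_of_dvd (lam_prime K) (hP.dvd_of_dvd_pow h5)).symm.dvd).trans hPM)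
  obtain ⟨d2, d3, d4⟩ := rho_diff_dvd K
  have hco : IsCoprime M ((↑g⁻¹ : 𝓞 K) * (M₂ * M₃ * M₄)) := by
    refine isCoprime_of_prime_dvd (fun h => hM (h.1 ▸ dvd_zero _)) fun P hP hPM hPR => ?_
    rw [Units.dvd_mul_left] at hPR
    rcases hP.dvd_or_dvd hPR with hPR | hPR
    · rcases hP.dvd_or_dvd hPR with hPR | hPR
      · exact key P hP hPM _ (hPR.trans h2) d2
      · exact key P hP hPM _ (hPR.trans h3) d3
    · exact key P hP hPM _ (hPR.trans h4) d4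
  obtain ⟨γ, u, hu⟩ := exists_associated_pow_of_associated_pow_mul hco
    (Associated.of_eq (show v ^ 5 = M * ((↑g⁻¹ : 𝓞 K) * (M₂ * M₃ * M₄)) by
      linear_combination -(↑g⁻¹ : 𝓞 K) * hprod - v ^ 5 * g.inv_mul))
  refine ⟨u, γ, fun h => hM ?_, by rw [← hu, mul_comm]⟩
  rw [← hu]
  exact dvd_mul_of_dvd_left (dvd_pow h (by norm_num)) _

omit [IsPrincipalIdealRing (𝓞 K)] in
/-- An integer prime to `5` is prime to `λ`. -/
theorem not_lam_dvd_int {n : ℤ} (hn : ¬ (5 : ℤ) ∣ n) : ¬ lam K ∣ (n : 𝓞 K) := fun h =>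
  hn ((cycloRing K).int_dvd n h)

/-- A fifth power `d` and a fifth power of the form with `c` prime to `5`: impossible. -/
theorem false_of_normForm (hK : KummerProp (𝓞 K) 5) {c d w z : ℤ} (hcd : IsCoprime c d)
    (hc : ¬ (5 : ℤ) ∣ c) (hw : w ≠ 0) (hd : d = w ^ 5) (h : normForm c d = z ^ 5) : False := by
  have hlam := lam_prime K
  obtain ⟨e, w', hw', rfl⟩ := WfDvdMonoid.max_power_factor hw
    (Int.prime_iff_natAbs_prime.2 Nat.prime_five : Prime (5 : ℤ)).irreducible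
  have hl1 : lam K ∣ rho₁ K :=
    rho₁_eq K ▸ dvd_mul_of_dvd_left (dvd_pow_self _ two_ne_zero) _
  have hM : ¬ lam K ∣ (c : 𝓞 K) - (d : 𝓞 K) * rho₁ K := fun h' => not_lam_dvd_int K hc (by
    have := dvd_add h' (dvd_mul_of_dvd_right hl1 (d : 𝓞 K))
    rwa [sub_add_cancel] at this)
  obtain ⟨ε, γ, hγ, hL⟩ := eq_unit_mul_pow K hcd (v := (z : 𝓞 K)) 1 hM
    (by rw [normForm_eq, Units.val_one, one_mul]
        simp only [normForm] at h ⊢
        exact_mod_cast congrArg (Int.cast : ℤ → 𝓞 K) h)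
    dvd_rfl dvd_rfl dvd_rfl dvd_rfl
  obtain ⟨g, hg⟩ := (cycloRing K).assoc
  refine no_conj_difference K hK ε (g ^ (5 * e) * unitDiff K) (4 * e) hγ
    (not_lam_dvd_int K hw') ?_
  rw [← hL, map_sub, map_intCast, map_mul, map_intCast, conj_rho₁]
  have hdK : (d : 𝓞 K) = lam K ^ (20 * e) * (g : 𝓞 K) ^ (5 * e) * (w' : 𝓞 K) ^ 5 := by
    rw [hd, show 20 * e = 4 * (5 * e) by ring, pow_mul (lam K), ← mul_pow,
      show lam K ^ 4 * (g : 𝓞 K) = 5 by simpa using hg]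
    push_cast
    rw [mul_pow, ← pow_mul, mul_comm e 5]
  push_cast
  linear_combination (d : 𝓞 K) * rho_sub K + lam K ^ 3 * (unitDiff K : 𝓞 K) * hdK

/-- `a` five times a fifth power and the form `25` times one: impossible. -/
theorem false_of_normForm_five (hK : KummerProp (𝓞 K) 5) {a b u v : ℤ} {k : ℕ}
    (hab : IsCoprime a b) (hu : ¬ (5 : ℤ) ∣ u) (ha : a = 5 ^ (5 * k + 1) * u ^ 5)
    (h : normForm a b = 25 * v ^ 5) : False := by
  have hlam := lam_prime K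
  have hb : ¬ (5 : ℤ) ∣ b := fun hb => (Nat.prime_iff_prime_int.mp Nat.prime_five).not_isUnit
    (hab.isUnit_of_dvd' (ha ▸ dvd_mul_of_dvd_left (dvd_pow_self _ (Nat.succ_ne_zero _)) _) hb)
  obtain ⟨g, hg⟩ := (cycloRing K).assoc
  have hg5 : lam K ^ 4 * (g : 𝓞 K) = 5 := by simpa using hg
  set a₀ : 𝓞 K := 5 ^ (5 * k) * (u : 𝓞 K) ^ 5 with ha₀
  have haK : (a : 𝓞 K) = 5 * a₀ := by rw [ha, ha₀]; push_cast; ring
  set M : 𝓞 K → 𝓞 K := fun r => lam K ^ 2 * (g : 𝓞 K) * a₀ - (b : 𝓞 K) * r with hMdef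
  have hfac : ∀ r, (a : 𝓞 K) - (b : 𝓞 K) * (lam K ^ 2 * r) = lam K ^ 2 * M r := fun r => by
    simp only [hMdef]; linear_combination haK - a₀ * hg5
  have hM : ¬ lam K ∣ M (-1 - zeta K) := fun h' => not_lam_dvd_int K hb (by
    have h'' := dvd_sub (dvd_mul_of_dvd_left (dvd_mul_of_dvd_left
      (dvd_pow_self (lam K) two_ne_zero) (g : 𝓞 K)) a₀) h'
    simp only [hMdef, sub_sub_cancel] at h''
    rwa [show (-1 - zeta K) = (unitRho K : 𝓞 K) from rfl, Units.dvd_mul_right] at h'')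
  have e1 := hfac (-1 - zeta K)
  have e2 := hfac (-zeta K - zeta K ^ 2 - zeta K ^ 3)
  have e3 := hfac (-1 - zeta K - zeta K ^ 2)
  have e4 := hfac (-zeta K ^ 2 - zeta K ^ 3)
  rw [← rho₁_eq] at e1; rw [← rho₂_eq] at e2; rw [← rho₃_eq] at e3; rw [← rho₄_eq] at e4
  have hn := normForm_eq K (a : 𝓞 K) (b : 𝓞 K)
  rw [e1, e2, e3, e4, show normForm (a : 𝓞 K) (b : 𝓞 K) = 25 * (v : 𝓞 K) ^ 5 by
    simp only [normForm] at h ⊢; exact_mod_cast congrArg (Int.cast : ℤ → 𝓞 K) h] at hn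
  obtain ⟨ε, γ, hγ, hL⟩ := eq_unit_mul_pow K hab (v := (v : 𝓞 K)) (g ^ 2) hM
    (mul_left_cancel₀ (pow_ne_zero 8 hlam.ne_zero) (by
      push_cast
      linear_combination hn - (5 + lam K ^ 4 * (g : 𝓞 K)) * (v : 𝓞 K) ^ 5 * hg5))
    (e1 ▸ dvd_mul_left _ _) (e2 ▸ dvd_mul_left _ _) (e3 ▸ dvd_mul_left _ _)
    (e4 ▸ dvd_mul_left _ _)
  set δ : (𝓞 K)ˣ := g⁻¹ * Units.map (conj K).toRingHom.toMonoidHom (unitRho K) with hδ
  obtain ⟨vl, hvl⟩ : ∃ x : (𝓞 K)ˣ, conj K (lam K) ^ 2 = lam K ^ 2 * (x : 𝓞 K) :=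
    ⟨((((cycloRing K).prim.isUnit (k := 5) (by norm_num)).pow 4).neg.pow 2).unit, by
      rw [IsUnit.unit_spec, show conj K (lam K) = -(zeta K ^ (5 - 1) * lam K) from cj_lam 5 K]
      ring⟩
  have h4 : rho₄ K = lam K ^ 2 * ((vl : 𝓞 K) * conj K (-1 - zeta K)) := by
    rw [← conj_rho₁, rho₁_eq, map_mul, map_pow, hvl]; ring
  -- `5 X₀ = ρ̄ (a - b ρ)`
  have hX : (5 : 𝓞 K) * (((δ * vl * ε : (𝓞 K)ˣ) : 𝓞 K) * γ ^ 5) =
      rho₄ K * ((a : 𝓞 K) - (b : 𝓞 K) * rho₁ K) := by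
    rw [e1, hL, h4, hδ, ← hg5]
    simp only [Units.val_mul, Units.coe_map, MonoidHom.coe_coe, RingEquiv.toRingHom_eq_coe,
      RingHom.toMonoidHom_eq_coe]
    rw [show (unitRho K : 𝓞 K) = -1 - zeta K from rfl]
    simp only [RingHom.coe_coe]
    linear_combination lam K ^ 4 * (conj K (-1 - zeta K) * (vl : 𝓞 K) * (ε : 𝓞 K) * γ ^ 5) *
      g.mul_inv
  have h50 : (5 : 𝓞 K) ≠ 0 := by norm_num
  refine no_conj_difference K hK (δ * vl * ε) (g ^ (5 * k) * unitDiff K) (4 * k) hγ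
    (not_lam_dvd_int K hu) (mul_left_cancel₀ h50 ?_)
  rw [mul_sub, show (5 : 𝓞 K) * conj K (((δ * vl * ε : (𝓞 K)ˣ) : 𝓞 K) * γ ^ 5) =
      conj K (5 * (((δ * vl * ε : (𝓞 K)ˣ) : 𝓞 K) * γ ^ 5)) by simp [map_ofNat],
    hX, map_mul, map_sub, map_intCast, map_mul, map_intCast, conj_rho₁, conj_rho₄]
  have hk : a₀ = lam K ^ (20 * k) * (g : 𝓞 K) ^ (5 * k) * (u : 𝓞 K) ^ 5 := by
    rw [ha₀, show 20 * k = 4 * (5 * k) by ring, pow_mul (lam K), ← mul_pow, hg5]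
  push_cast
  linear_combination (a : 𝓞 K) * rho_sub K + lam K ^ 3 * (unitDiff K : 𝓞 K) * haK +
    5 * lam K ^ 3 * (unitDiff K : 𝓞 K) * hk

end FA.X0OneTwentyFive

namespace FA.X0OneTwentyFive

set_option backward.isDefEq.respectTransparency false in
/-- `ℤ[ζ₅]` is a principal ideal domain. -/
theorem isPrincipalIdealRing_five : IsPrincipalIdealRing (𝓞 (CyclotomicField 5 ℚ)) := by
  haveI : Fact (Nat.Prime 5) := ⟨Nat.prime_five⟩
  haveI := CyclotomicField.isCyclotomicExtension 5 ℚ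
  have hζ : IsPrimitiveRoot (IsCyclotomicExtension.zeta 5 ℚ (CyclotomicField 5 ℚ)) 5 :=
    IsCyclotomicExtension.zeta_spec 5 ℚ (CyclotomicField 5 ℚ)
  refine isPrincipalIdealRing_of_pidCheck hζ 1 ?_ [] (by decide +kernel)
  rw [IsCyclotomicExtension.Rat.nrComplexPlaces_eq_totient_div_two (n := 5)
      (CyclotomicField 5 ℚ),
    IsCyclotomicExtension.Rat.finrank 5 (CyclotomicField 5 ℚ), Nat.totient_prime Nat.prime_five,
    IsCyclotomicExtension.Rat.discr_prime 5 (CyclotomicField 5 ℚ)]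
  have hs : Real.sqrt ((5 : ℝ) ^ 3) < 11.2 := by
    rw [Real.sqrt_lt (by positivity) (by positivity)]; norm_num
  have hpi : 4 / Real.pi ≤ 4 / 3.1415 := by gcongr; exact Real.pi_gt_d4.le
  have hpi0 : (0 : ℝ) ≤ 4 / Real.pi := by positivity
  norm_num [Nat.factorial] at hs hpi hpi0 ⊢
  nlinarith [hs, mul_le_mul hpi hpi hpi0 (by norm_num), Real.sqrt_nonneg ((5 : ℝ) ^ 3)]

set_option backward.isDefEq.respectTransparency false in
/-- Kummer's lemma at `5`. -/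
theorem kummerProp_five : KummerProp (𝓞 (CyclotomicField 5 ℚ)) 5 :=
  haveI : Fact (Nat.Prime 5) := ⟨Nat.prime_five⟩
  haveI := CyclotomicField.isCyclotomicExtension 5 ℚ
  kummerProp_ringOfIntegers (by norm_num)
    (IsCyclotomicExtension.zeta_spec 5 ℚ (CyclotomicField 5 ℚ)) unitCerts5 (by decide +kernel)
    (by decide +kernel) (by decide +kernel)

end FA.X0OneTwentyFive

end
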